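/-
S57 helper library (helper7): descent step. If the patched module L.N is free over the
power series ring, then M is free and faithful over R and ker ψ is generated by the φ (X i).
-/
import Mathlib
import Fermat.Prelude.Def_Algebra_PatchingDatum

set_option autoImplicit false

namespace Fermat.Agent.S57

open MvPowerSeries

section

variable {A : Type*} [CommRing A] {N : Type*} [AddCommGroup N] [Module A N]

/-- In a free module, an element lies in `I • ⊤` iff all its coordinates lie in `I`. -/
lemma mem_smul_top_iff_repr {ι : Type*} (e : Module.Basis ι A N) (I : Ideal A) (x : N) :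
    x ∈ I • (⊤ : Submodule A N) ↔ ∀ i, e.repr x i ∈ I := by
  rw [← e.span_eq, Submodule.mem_ideal_smul_span_iff_exists_sum]
  constructor
  · rintro ⟨a, ha, rfl⟩ i
    have : e.repr (a.sum fun i c => c • e i) = a := by
      rw [← Finsupp.linearCombination_apply, e.repr_linearCombination]
    rw [this]
    exact ha i
  · intro h
    refine ⟨e.repr x, h, ?_⟩
    rw [← Finsupp.linearCombination_apply, e.linearCombination_repr]

end

theorem descent_of_free
    {𝒪 : Type} [CommRing 𝒪]
    {r : ℕ} {R : Type} [CommRing R] [Algebra 𝒪 R]
    {M : Type} [AddCommGroup M] [Module R M] [Nontrivial M]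
    {J : Ideal (MvPowerSeries (Fin r) 𝒪)}
    (L : Algebra.PatchingLevel 𝒪 r R M J)
    (hfree : Module.Free (MvPowerSeries (Fin r) 𝒪) L.N) :
    Module.Free R M ∧ Module.annihilator R M = ⊥ ∧
      RingHom.ker L.ψ = Ideal.span (Set.range fun i : Fin r => L.φ (MvPowerSeries.X i)) := by
  classical
  set A := MvPowerSeries (Fin r) 𝒪 with hA
  set I : Ideal A := Ideal.span (Set.range fun i : Fin r => L.φ (MvPowerSeries.X i)) with hI
  obtain ⟨⟨ι, e⟩⟩ := hfree
  -- `I ≤ ker ψ`
  have hIle : I ≤ RingHom.ker L.ψ := by
    rw [hI, Ideal.span_le]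
    rintro _ ⟨i, rfl⟩
    exact L.ψ_φ_X i
  -- the basis is nonempty
  have hne : Nonempty ι := by
    by_contra hemp
    rw [not_nonempty_iff] at hemp
    obtain ⟨m, hm⟩ := exists_ne (0 : M)
    obtain ⟨x, rfl⟩ := L.π_surjective m
    have hx : x = 0 := by
      apply e.repr.injective
      ext i
      exact (hemp.false i).elim
    exact hm (by rw [hx, map_zero])
  -- `ker ψ ≤ I`
  have hkerle : RingHom.ker L.ψ ≤ I := by
    intro f hf
    obtain ⟨j⟩ := hne
    have h1 : L.π (f • e j) = 0 := by
      rw [L.π_smul, RingHom.mem_ker.mp hf, zero_smul]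
    have h2 := (L.ker_π (f • e j)).mp h1
    have h3 := (mem_smul_top_iff_repr e I (f • e j)).mp h2 j
    simpa using h3
  have hker : RingHom.ker L.ψ = I := le_antisymm hkerle hIle
  -- π of a linear combination
  have hπsum : ∀ (a : ι →₀ A), L.π (a.sum fun i c => c • e i) =
      a.sum fun i c => L.ψ c • L.π (e i) := by
    intro a
    rw [Finsupp.sum, map_sum]
    simp only [L.π_smul]
    rfl
  -- the family `π (e i)` is a basis of `M` over `R`
  have hli : LinearIndependent R (fun i => L.π (e i)) := by
    rw [linearIndependent_iff]
    intro c hc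
    -- lift coefficients
    have hlift : ∀ i, ∃ a : A, L.ψ a = c i := fun i => L.ψ_surjective (c i)
    choose a ha using hlift
    set a' : ι →₀ A := Finsupp.onFinset c.support (fun i => if i ∈ c.support then a i else 0)
      (by intro i hi; by_contra h; simp [h] at hi) with ha'
    have ha'c : ∀ i, L.ψ (a' i) = c i := by
      intro i
      rw [ha', Finsupp.onFinset_apply]
      split_ifs with h
      · exact ha i
      · rw [map_zero]; exact (Finsupp.notMem_support_iff.mp h).symm
    have h1 : L.π (a'.sum fun i c => c • e i) = 0 := by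
      rw [hπsum]
      rw [Finsupp.linearCombination_apply] at hc
      rw [← hc, Finsupp.sum, Finsupp.sum]
      have hsupp : a'.support ⊆ c.support := by
        intro i hi
        rw [Finsupp.mem_support_iff] at hi ⊢
        intro h0
        apply hi
        rw [ha', Finsupp.onFinset_apply, if_neg (by simpa using h0)]
      rw [Finset.sum_subset hsupp]
      · exact Finset.sum_congr rfl fun i _ => by rw [ha'c]
      · intro i _ hi
        rw [Finsupp.notMem_support_iff] at hi
        rw [hi, map_zero, zero_smul]
    have h2 := (L.ker_π _).mp h1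
    have h3 := (mem_smul_top_iff_repr e I _).mp h2
    ext i
    have h4 := h3 i
    rw [← Finsupp.linearCombination_apply, e.repr_linearCombination] at h4
    have h5 := hIle h4
    rw [RingHom.mem_ker, ha'c] at h5
    simpa using h5
  have hsp : ⊤ ≤ Submodule.span R (Set.range fun i => L.π (e i)) := by
    intro m _
    obtain ⟨x, rfl⟩ := L.π_surjective m
    rw [← e.linearCombination_repr x, Finsupp.linearCombination_apply, hπsum]
    refine Submodule.sum_mem _ fun i _ => ?_
    exact Submodule.smul_mem _ _ (Submodule.subset_span ⟨i, rfl⟩)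
  have hfreeM : Module.Free R M := Module.Free.of_basis (Module.Basis.mk hli hsp)
  refine ⟨hfreeM, ?_, hker⟩
  have := hfreeM
  exact Module.annihilator_eq_bot.mpr inferInstance

end Fermat.Agent.S57
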