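import Mathlib.RingTheory.Regular.ProjectiveDimension
import Mathlib.RingTheory.FiniteLength
import Mathlib.RingTheory.LocalRing.Module
import Mathlib.RingTheory.SimpleModule.Basic
import Mathlib.Algebra.Category.ModuleCat.Projective
import Mathlib.Algebra.Homology.ShortComplex.ModuleCat

/-!
# Projective dimension of finite length modules over a regular local ring (abstract form)

`A` is a Noetherian local ring whose maximal ideal is generated by a regular sequence `rs`.
* every finite length `A`-module has projective dimension `≤ rs.length`;
* a finite `A`-module `N` admitting a weakly regular sequence `ys` (in the maximal ideal)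
  of length `≥ rs.length` with `N / (ys) N` of finite length is free.
-/

set_option autoImplicit false

namespace Fermat.Agent.S57

open CategoryTheory IsLocalRing RingTheory.Sequence

section

variable {A : Type} [CommRing A] [IsLocalRing A] [IsNoetherianRing A]

/-- The residue field `A ⧸ (rs)` has projective dimension `≤ rs.length`. -/
theorem hasProjectiveDimensionLE_quot_ofList (rs : List A) (reg : IsRegular A rs) :
    HasProjectiveDimensionLE (ModuleCat.of A (A ⧸ Ideal.ofList rs)) rs.length := by
  have h := ModuleCat.projectiveDimension_quotient_eq_length.{0, 0} rs reg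
  have h' : HasProjectiveDimensionLE
      (ModuleCat.of A (Shrink.{0} (A ⧸ Ideal.ofList rs))) rs.length := by
    rw [← projectiveDimension_le_iff, h]
  exact ModuleCat.hasProjectiveDimensionLE_of_linearEquiv
    (M := ModuleCat.of A (Shrink.{0} (A ⧸ Ideal.ofList rs)))
    (N := ModuleCat.of A (A ⧸ Ideal.ofList rs))
    (Shrink.linearEquiv A (A ⧸ Ideal.ofList rs)) rs.length

/-- Over a local ring whose maximal ideal is generated by a regular sequence `rs`, every module
of finite length has projective dimension at most `rs.length`. -/
theorem hasProjectiveDimensionLE_of_isFiniteLength (rs : List A) (reg : IsRegular A rs)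
    (hrs : Ideal.ofList rs = maximalIdeal A)
    (L : Type) [AddCommGroup L] [Module A L] (hL : IsFiniteLength A L) :
    HasProjectiveDimensionLE (ModuleCat.of A L) rs.length := by
  induction hL with
  | @of_subsingleton M _ _ _ =>
    have hz : Limits.IsZero (ModuleCat.of A M) :=
      ModuleCat.isZero_of_subsingleton (ModuleCat.of A M)
    have h0 : HasProjectiveDimensionLT (ModuleCat.of A M) 0 := hz.hasProjectiveDimensionLT_zero
    exact hasProjectiveDimensionLT_of_ge (ModuleCat.of A M) 0 (rs.length + 1) (Nat.zero_le _)
  | @of_simple_quotient M _ _ N hsimple _ ih =>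
    -- the quotient is isomorphic to the residue field
    obtain ⟨I, hI, ⟨e⟩⟩ := isSimpleModule_iff_quot_maximal.mp hsimple
    have hIm : I = Ideal.ofList rs := by rw [hrs]; exact IsLocalRing.eq_maximalIdeal hI
    subst hIm
    have h3 : HasProjectiveDimensionLE (ModuleCat.of A (M ⧸ N)) rs.length := by
      have := hasProjectiveDimensionLE_quot_ofList rs reg
      exact ModuleCat.hasProjectiveDimensionLE_of_linearEquiv
        (M := ModuleCat.of A (A ⧸ Ideal.ofList rs))
        (N := ModuleCat.of A (M ⧸ N)) e.symm rs.length
    have h1 : HasProjectiveDimensionLE (ModuleCat.of A (LinearMap.ker N.mkQ)) rs.length := by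
      have := ih
      exact ModuleCat.hasProjectiveDimensionLE_of_linearEquiv
        (M := ModuleCat.of A N)
        (N := ModuleCat.of A (LinearMap.ker N.mkQ))
        (LinearEquiv.ofEq _ _ (Submodule.ker_mkQ N).symm) rs.length
    have hS := LinearMap.shortExact_shortComplexKer (f := N.mkQ) (Submodule.mkQ_surjective N)
    exact hS.hasProjectiveDimensionLT_X₂ (rs.length + 1) h1 h3

/-- A finite module `N` over a Noetherian local ring `A` whose maximal ideal is generated by a
regular sequence `rs`, admitting a weakly `N`-regular sequence `ys` in the maximal ideal with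
`rs.length ≤ ys.length` such that `N ⧸ (ys) N` has finite length, is free. -/
theorem free_of_isWeaklyRegular_of_isFiniteLength (rs : List A) (reg : IsRegular A rs)
    (hrs : Ideal.ofList rs = maximalIdeal A)
    (N : Type) [AddCommGroup N] [Module A N] [Module.Finite A N]
    (ys : List A) (hys : IsWeaklyRegular N ys) (hmem : ∀ y ∈ ys, y ∈ maximalIdeal A)
    (hlen : rs.length ≤ ys.length)
    (hfin : IsFiniteLength A (N ⧸ Ideal.ofList ys • (⊤ : Submodule A N))) :
    Module.Free A N := by
  rcases subsingleton_or_nontrivial N with hN | hN
  · exact Module.Free.of_subsingleton A N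
  · have h1 := ModuleCat.projectiveDimension_quotient_eq_add_length_of_isWeaklyRegular
      (ModuleCat.of A N) ys hys hmem
    have h2 := hasProjectiveDimensionLE_of_isFiniteLength rs reg hrs _ hfin
    rw [← projectiveDimension_le_iff] at h2
    rw [h1] at h2
    -- so the projective dimension of `N` is `≤ 0`
    have h3 : projectiveDimension (ModuleCat.of A N) ≤ 0 := by
      have h4 : projectiveDimension (ModuleCat.of A N) + (ys.length : ℕ) ≤ (ys.length : ℕ) :=
        h2.trans (by exact_mod_cast hlen)
      generalize projectiveDimension (ModuleCat.of A N) = x at h4 ⊢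
      induction x with
      | bot => exact bot_le
      | coe x =>
        induction x with
        | top =>
          exfalso
          have h5 : ((⊤ : ℕ∞) : WithBot ℕ∞) + ((ys.length : ℕ∞) : WithBot ℕ∞)
              ≤ ((ys.length : ℕ∞) : WithBot ℕ∞) := h4
          rw [← WithBot.coe_add, WithBot.coe_le_coe, top_add, top_le_iff] at h5
          exact ENat.natCast_ne_top _ h5
        | coe n =>
          have h5 : (((n : ℕ∞)) : WithBot ℕ∞) + ((ys.length : ℕ∞) : WithBot ℕ∞)
              ≤ ((ys.length : ℕ∞) : WithBot ℕ∞) := h4
          rw [← WithBot.coe_add, WithBot.coe_le_coe] at h5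
          have h6 : n + ys.length ≤ ys.length := by exact_mod_cast h5
          have h7 : n = 0 := by omega
          subst h7
          exact le_refl _
    have h5 : HasProjectiveDimensionLE (ModuleCat.of A N) 0 := by
      rw [← projectiveDimension_le_iff]; exact_mod_cast h3
    have h6 : Projective (ModuleCat.of A N) :=
      (projective_iff_hasProjectiveDimensionLE_zero _).mpr h5
    have h7 : Module.Projective A N := by
      rw [IsProjective.iff_projective]; exact h6
    exact Module.free_of_flat_of_isLocalRing

end

end Fermat.Agent.S57
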