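/-
S57 helper library (helper7): the sequence X_0, …, X_{r-1}, C ϖ in the power series ring
MvPowerSeries (Fin r) R is regular and generates the maximal ideal.
-/
import Mathlib

set_option autoImplicit false

open MvPowerSeries RingTheory.Sequence
open scoped Pointwise

namespace Fermat.Agent.S57

section ev0

variable (R : Type*) [CommRing R] (n : ℕ)

/-- evaluation at `X 0 = 0`. -/
noncomputable def ev0 : MvPowerSeries (Fin (n + 1)) R →+* MvPowerSeries (Fin n) R :=
  (PowerSeries.constantCoeff (R := MvPowerSeries (Fin n) R)).comp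
    (MvPowerSeries.finSuccEquiv R n).toRingEquiv.toRingHom

lemma ev0_apply (f : MvPowerSeries (Fin (n + 1)) R) :
    ev0 R n f = PowerSeries.constantCoeff (MvPowerSeries.finSuccEquiv R n f) := rfl

@[simp] lemma ev0_X_zero : ev0 R n (X 0) = 0 := by
  rw [ev0_apply, finSuccEquiv_X_zero, PowerSeries.constantCoeff_X]

@[simp] lemma ev0_X_succ (j : Fin n) : ev0 R n (X j.succ) = X j := by
  rw [ev0_apply, finSuccEquiv_X_succ, PowerSeries.constantCoeff_C]

@[simp] lemma ev0_C (a : R) : ev0 R n (C a) = C a := by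
  rw [ev0_apply, finSuccEquiv_C, PowerSeries.constantCoeff_C]

lemma ev0_surjective : Function.Surjective (ev0 R n) := by
  intro f
  refine ⟨(MvPowerSeries.finSuccEquiv R n).symm (PowerSeries.C f), ?_⟩
  rw [ev0_apply, AlgEquiv.apply_symm_apply, PowerSeries.constantCoeff_C]

lemma ker_ev0 : RingHom.ker (ev0 R n) = Ideal.span {(X 0 : MvPowerSeries (Fin (n + 1)) R)} := by
  ext f
  rw [RingHom.mem_ker, Ideal.mem_span_singleton, ev0_apply, ← PowerSeries.X_dvd_iff]
  constructor
  · intro h
    have := map_dvd (MvPowerSeries.finSuccEquiv R n).symm h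
    rwa [← finSuccEquiv_X_zero (R := R) (n := n), AlgEquiv.symm_apply_apply,
      AlgEquiv.symm_apply_apply] at this
  · intro h
    have := map_dvd (MvPowerSeries.finSuccEquiv R n) h
    rwa [finSuccEquiv_X_zero] at this

lemma X0_smul_top_eq :
    (X 0 : MvPowerSeries (Fin (n + 1)) R) • (⊤ : Submodule (MvPowerSeries (Fin (n + 1)) R)
      (MvPowerSeries (Fin (n + 1)) R)) = RingHom.ker (ev0 R n) := by
  rw [ker_ev0, ← Submodule.ideal_span_singleton_smul, smul_eq_mul, Ideal.mul_top]

/-- `A_{n+1} / X_0 ≃ A_n` additively. -/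
noncomputable def quotX0Equiv :
    QuotSMulTop (X 0 : MvPowerSeries (Fin (n + 1)) R) (MvPowerSeries (Fin (n + 1)) R) ≃+
      MvPowerSeries (Fin n) R :=
  (Submodule.quotEquivOfEq _ _ (X0_smul_top_eq R n)).toAddEquiv.trans
    (RingHom.quotientKerEquivOfSurjective (ev0_surjective R n)).toAddEquiv

lemma quotX0Equiv_mk (f : MvPowerSeries (Fin (n + 1)) R) :
    quotX0Equiv R n (Submodule.Quotient.mk f) = ev0 R n f := rfl

lemma quotX0Equiv_smul (g : MvPowerSeries (Fin (n + 1)) R)
    (x : QuotSMulTop (X 0 : MvPowerSeries (Fin (n + 1)) R) (MvPowerSeries (Fin (n + 1)) R)) :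
    quotX0Equiv R n (g • x) = ev0 R n g • quotX0Equiv R n x := by
  induction x using Submodule.Quotient.induction_on with
  | _ f =>
    rw [← Submodule.Quotient.mk_smul, quotX0Equiv_mk, quotX0Equiv_mk, smul_eq_mul, map_mul,
      smul_eq_mul]

end ev0

section paramList

variable (R : Type*) [CommRing R]

/-- The sequence `X 0, …, X (r-1), C ϖ`. -/
noncomputable def paramList (r : ℕ) (ϖ : R) : List (MvPowerSeries (Fin r) R) :=
  List.ofFn (fun i : Fin r => (X i : MvPowerSeries (Fin r) R)) ++ [C ϖ]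

variable {R}

lemma mem_paramList {r : ℕ} {ϖ : R} {x : MvPowerSeries (Fin r) R} :
    x ∈ paramList R r ϖ ↔ (∃ i : Fin r, x = X i) ∨ x = C ϖ := by
  simp only [paramList, List.mem_append, List.mem_ofFn, List.mem_singleton]
  constructor
  · rintro (⟨i, rfl⟩ | h)
    · exact Or.inl ⟨i, rfl⟩
    · exact Or.inr h
  · rintro (⟨i, rfl⟩ | h)
    · exact Or.inl ⟨i, rfl⟩
    · exact Or.inr h

lemma paramList_succ (n : ℕ) (ϖ : R) :
    paramList R (n + 1) ϖ =
      X 0 :: (List.ofFn (fun i : Fin n => (X i.succ : MvPowerSeries (Fin (n + 1)) R)) ++ [C ϖ]) := by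
  rw [paramList, List.ofFn_succ, List.cons_append]

lemma forall₂_paramList (n : ℕ) (ϖ : R) :
    List.Forall₂ (fun (a : MvPowerSeries (Fin (n + 1)) R) (b : MvPowerSeries (Fin n) R) =>
        ∀ x : QuotSMulTop (X 0 : MvPowerSeries (Fin (n + 1)) R) (MvPowerSeries (Fin (n + 1)) R),
          quotX0Equiv R n (a • x) = b • quotX0Equiv R n x)
      (List.ofFn (fun i : Fin n => (X i.succ : MvPowerSeries (Fin (n + 1)) R)) ++ [C ϖ])
      (paramList R n ϖ) := by
  rw [paramList]
  refine List.rel_append ?_ ?_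
  · rw [List.forall₂_iff_get]
    refine ⟨by simp, fun i h₁ h₂ x => ?_⟩
    simp only [List.get_eq_getElem, List.getElem_ofFn]
    rw [quotX0Equiv_smul, ev0_X_succ]
  · refine List.Forall₂.cons (fun x => ?_) List.Forall₂.nil
    rw [quotX0Equiv_smul, ev0_C]

theorem paramList_isWeaklyRegular [IsDomain R] (r : ℕ) {ϖ : R} (hϖ : ϖ ≠ 0) :
    IsWeaklyRegular (MvPowerSeries (Fin r) R) (paramList R r ϖ) := by
  induction r with
  | zero =>
    have h : paramList R 0 ϖ = [C ϖ] := by simp [paramList]
    rw [h, isWeaklyRegular_singleton_iff]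
    refine IsSMulRegular.of_ne_zero ?_
    intro h0
    apply hϖ
    have := congrArg (MvPowerSeries.constantCoeff (σ := Fin 0) (R := R)) h0
    simpa using this
  | succ n ih =>
    rw [paramList_succ, isWeaklyRegular_cons_iff]
    have hX : (X 0 : MvPowerSeries (Fin (n + 1)) R) ≠ 0 := by
      intro h0
      have := congrArg (MvPowerSeries.coeff (R := R) (Finsupp.single (0 : Fin (n + 1)) 1)) h0
      rw [coeff_index_single_self_X, map_zero] at this
      exact one_ne_zero this
    refine ⟨IsSMulRegular.of_ne_zero hX, ?_⟩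
    exact (AddEquiv.isWeaklyRegular_congr (forall₂_paramList n ϖ)).mpr ih

lemma constantCoeff_ev0 (n : ℕ) (f : MvPowerSeries (Fin (n + 1)) R) :
    constantCoeff (ev0 R n f) = constantCoeff f := by
  rw [ev0_apply, ← PowerSeries.coeff_zero_eq_constantCoeff_apply,
    ← MvPowerSeries.coeff_zero_eq_constantCoeff_apply,
    ← MvPowerSeries.coeff_zero_eq_constantCoeff_apply, coeff_coeff_finSuccEquiv,
    Finsupp.cons_zero_zero]

/-- A power series in finitely many variables with zero constant coefficient lies in the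
ideal generated by the variables. -/
theorem mem_span_range_X_of_constantCoeff_eq_zero (r : ℕ) (f : MvPowerSeries (Fin r) R)
    (hf : constantCoeff f = 0) :
    f ∈ Ideal.span (Set.range (fun i : Fin r => (X i : MvPowerSeries (Fin r) R))) := by
  induction r with
  | zero =>
    have : f = 0 := by
      ext m
      have hm : m = 0 := Subsingleton.elim _ _
      rw [hm, MvPowerSeries.coeff_zero_eq_constantCoeff_apply, hf, map_zero]
    rw [this]
    exact Ideal.zero_mem _
  | succ n ih =>
    have h1 := ih (ev0 R n f) (by rw [constantCoeff_ev0, hf])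
    set J : Ideal (MvPowerSeries (Fin (n + 1)) R) :=
      Ideal.span (Set.range (fun i : Fin n => (X i.succ : MvPowerSeries (Fin (n + 1)) R))) with hJ
    have hmap : Ideal.map (ev0 R n) J =
        Ideal.span (Set.range (fun i : Fin n => (X i : MvPowerSeries (Fin n) R))) := by
      rw [hJ, Ideal.map_span]
      congr 1
      ext x
      simp only [Set.mem_image, Set.mem_range, exists_exists_eq_and, ev0_X_succ]
    rw [← hmap, ← Ideal.mem_comap, Ideal.comap_map_of_surjective _ (ev0_surjective R n)] at h1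
    have hle : J ⊔ Ideal.comap (ev0 R n) ⊥ ≤
        Ideal.span (Set.range (fun i : Fin (n + 1) => (X i : MvPowerSeries (Fin (n + 1)) R))) := by
      refine sup_le ?_ ?_
      · rw [hJ]
        refine Ideal.span_mono ?_
        rintro _ ⟨i, rfl⟩
        exact ⟨i.succ, rfl⟩
      · rw [← RingHom.ker_eq_comap_bot, ker_ev0, Ideal.span_singleton_le_iff_mem]
        exact Ideal.subset_span ⟨0, rfl⟩
    exact hle h1

lemma ofList_paramList_eq (r : ℕ) (ϖ : R) :
    Ideal.ofList (paramList R r ϖ) =
      Ideal.span (Set.range (fun i : Fin r => (X i : MvPowerSeries (Fin r) R))) ⊔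
        Ideal.span {C ϖ} := by
  rw [Ideal.ofList, ← Ideal.span_union]
  congr 1
  ext x
  simp only [Set.mem_ofPred_eq, mem_paramList, Set.mem_union, Set.mem_range, Set.mem_singleton_iff]
  constructor
  · rintro (⟨i, rfl⟩ | h)
    · exact Or.inl ⟨i, rfl⟩
    · exact Or.inr h
  · rintro (⟨i, rfl⟩ | h)
    · exact Or.inl ⟨i, rfl⟩
    · exact Or.inr h

section Local

variable [IsLocalRing R]

lemma X_mem_maximalIdeal {r : ℕ} (i : Fin r) :
    (X i : MvPowerSeries (Fin r) R) ∈ IsLocalRing.maximalIdeal (MvPowerSeries (Fin r) R) := by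
  rw [IsLocalRing.mem_maximalIdeal, mem_nonunits_iff, MvPowerSeries.isUnit_iff_constantCoeff,
    MvPowerSeries.constantCoeff_X]
  exact not_isUnit_zero

lemma C_mem_maximalIdeal_iff {r : ℕ} (a : R) :
    (C a : MvPowerSeries (Fin r) R) ∈ IsLocalRing.maximalIdeal (MvPowerSeries (Fin r) R) ↔
      a ∈ IsLocalRing.maximalIdeal R := by
  rw [IsLocalRing.mem_maximalIdeal, mem_nonunits_iff, MvPowerSeries.isUnit_iff_constantCoeff,
    MvPowerSeries.constantCoeff_C, IsLocalRing.mem_maximalIdeal, mem_nonunits_iff]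

lemma mem_maximalIdeal_iff_constantCoeff {r : ℕ} (f : MvPowerSeries (Fin r) R) :
    f ∈ IsLocalRing.maximalIdeal (MvPowerSeries (Fin r) R) ↔
      constantCoeff f ∈ IsLocalRing.maximalIdeal R := by
  rw [IsLocalRing.mem_maximalIdeal, mem_nonunits_iff, MvPowerSeries.isUnit_iff_constantCoeff,
    IsLocalRing.mem_maximalIdeal, mem_nonunits_iff]

lemma paramList_subset_maximalIdeal {r : ℕ} {ϖ : R} (hϖ : ϖ ∈ IsLocalRing.maximalIdeal R) :
    ∀ x ∈ paramList R r ϖ, x ∈ IsLocalRing.maximalIdeal (MvPowerSeries (Fin r) R) := by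
  intro x hx
  rcases mem_paramList.mp hx with ⟨i, rfl⟩ | rfl
  · exact X_mem_maximalIdeal i
  · exact (C_mem_maximalIdeal_iff ϖ).mpr hϖ

theorem ofList_paramList (r : ℕ) {ϖ : R} (hϖ : IsLocalRing.maximalIdeal R = Ideal.span {ϖ}) :
    Ideal.ofList (paramList R r ϖ) = IsLocalRing.maximalIdeal (MvPowerSeries (Fin r) R) := by
  have hϖ' : ϖ ∈ IsLocalRing.maximalIdeal R := by
    rw [hϖ]; exact Ideal.mem_span_singleton_self ϖ
  apply le_antisymm
  · rw [Ideal.ofList, Ideal.span_le]
    exact fun x hx => paramList_subset_maximalIdeal hϖ' x hx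
  · intro f hf
    rw [mem_maximalIdeal_iff_constantCoeff, hϖ, Ideal.mem_span_singleton] at hf
    obtain ⟨a, ha⟩ := hf
    rw [ofList_paramList_eq]
    have h1 : f - C ϖ * C a ∈
        Ideal.span (Set.range (fun i : Fin r => (X i : MvPowerSeries (Fin r) R))) := by
      apply mem_span_range_X_of_constantCoeff_eq_zero
      rw [map_sub, map_mul, MvPowerSeries.constantCoeff_C, MvPowerSeries.constantCoeff_C, ha,
        sub_self]
    have h2 : C ϖ * C a ∈ Ideal.span {(C ϖ : MvPowerSeries (Fin r) R)} :=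
      Ideal.mul_mem_right _ _ (Ideal.mem_span_singleton_self _)
    have := Ideal.add_mem _ (Ideal.mem_sup_left h1) (Ideal.mem_sup_right h2)
    rwa [sub_add_cancel] at this

theorem paramList_isRegular [IsDomain R] (r : ℕ) {ϖ : R} (hϖ0 : ϖ ≠ 0)
    (hϖ : ϖ ∈ IsLocalRing.maximalIdeal R) :
    IsRegular (MvPowerSeries (Fin r) R) (paramList R r ϖ) :=
  IsRegular.of_isWeaklyRegular_of_mem_maximalIdeal _ (paramList_subset_maximalIdeal hϖ)
    (paramList_isWeaklyRegular r hϖ0)

end Local

end paramList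

end Fermat.Agent.S57
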